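/-
P-CHEB phase 2 / CH2-LOG (row 444, helper65): a continuous logarithm of a function which is
Lipschitz and bounded away from `0` on `(1, 1 + δ]` is bounded there.
-/
import Fermat.Agent.H62.Cheb2.Interfaces

set_option autoImplicit false

noncomputable section

namespace Fermat.Agent.H65

/-- A continuous function on a real segment with values in `ℤ` (inside `ℝ`) is constant. -/
theorem loglift_int_valued_const {φ : ℝ → ℝ} {a b : ℝ} (hφ : ContinuousOn φ (Set.uIcc a b))
    (hint : ∀ t ∈ Set.uIcc a b, ∃ n : ℤ, φ t = n) : φ a = φ b := by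
  have hpre : IsPreconnected (φ '' Set.uIcc a b) := isPreconnected_uIcc.image φ hφ
  have hord : (φ '' Set.uIcc a b).OrdConnected := hpre.ordConnected
  have ha : φ a ∈ φ '' Set.uIcc a b := ⟨a, Set.left_mem_uIcc, rfl⟩
  have hb : φ b ∈ φ '' Set.uIcc a b := ⟨b, Set.right_mem_uIcc, rfl⟩
  obtain ⟨m, hm⟩ := hint a Set.left_mem_uIcc
  obtain ⟨n, hn⟩ := hint b Set.right_mem_uIcc
  by_contra hne
  rw [hm, hn] at hne
  have hmn : m ≠ n := fun h => hne (by rw [h])
  -- the half-integer point between `min m n` and `min m n + 1`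
  set k : ℤ := min m n with hk
  have hklt : k < max m n := by
    rcases lt_or_gt_of_ne hmn with h | h
    · rw [hk, min_eq_left h.le, max_eq_right h.le]; exact h
    · rw [hk, min_eq_right h.le, max_eq_left h.le]; exact h
  have hmem : ((k : ℝ) + 1 / 2) ∈ φ '' Set.uIcc a b := by
    have hsub := hord.uIcc_subset ha hb
    apply hsub
    rw [hm, hn, Set.mem_uIcc]
    have h1 : (k : ℝ) = min (m : ℝ) (n : ℝ) := by rw [hk]; push_cast; rfl
    have h2 : (k : ℝ) + 1 ≤ max (m : ℝ) (n : ℝ) := by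
      have : k + 1 ≤ max m n := hklt
      have h3 : ((k + 1 : ℤ) : ℝ) ≤ ((max m n : ℤ) : ℝ) := by exact_mod_cast this
      push_cast at h3
      exact h3
    rcases le_total (m : ℝ) (n : ℝ) with h | h
    · left
      rw [min_eq_left h] at h1
      rw [max_eq_right h] at h2
      constructor <;> linarith
    · right
      rw [min_eq_right h] at h1
      rw [max_eq_left h] at h2
      constructor <;> linarith
  obtain ⟨t, ht, hval⟩ := hmem
  obtain ⟨r, hr⟩ := hint t ht
  rw [hr] at hval
  have h4 : (2 * r : ℝ) = 2 * k + 1 := by linarith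
  have h5 : (2 * r : ℤ) = 2 * k + 1 := by exact_mod_cast h4
  omega

/-- Local step: on a short segment, a continuous logarithm moves by at most `1`. -/
theorem loglift_local (f ℓ : ℝ → ℂ) (I : Set ℝ) (hI : I.OrdConnected) (c Λ : ℝ) (hc : 0 < c)
    (hΛ : 0 < Λ) (hℓ : ContinuousOn ℓ I) (hexp : ∀ s ∈ I, Complex.exp (ℓ s) = f s)
    (hfc : ∀ s ∈ I, c ≤ ‖f s‖)
    (hLip : ∀ s ∈ I, ∀ s' ∈ I, ‖f s - f s'‖ ≤ Λ * |s - s'|)
    {s s' : ℝ} (hs : s ∈ I) (hs' : s' ∈ I) (hd : |s - s'| ≤ c / (2 * Λ)) :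
    ‖ℓ s - ℓ s'‖ ≤ 1 := by
  have hJ : Set.uIcc s s' ⊆ I := hI.uIcc_subset hs hs'
  have hf0 : f s' ≠ 0 := by
    intro h
    have := hfc s' hs'
    rw [h, norm_zero] at this
    linarith
  have hfpos : 0 < ‖f s'‖ := norm_pos_iff.mpr hf0
  -- the quotient `z t = f t / f s'` stays in the disc of radius `1/2` around `1`
  have hz : ∀ t ∈ Set.uIcc s s', ‖f t / f s' - 1‖ ≤ 1 / 2 := by
    intro t ht
    have h1 : f t / f s' - 1 = (f t - f s') / f s' := by field_simp
    rw [h1, norm_div, div_le_iff₀ hfpos]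
    have h2 : ‖f t - f s'‖ ≤ Λ * |t - s'| := hLip t (hJ ht) s' hs'
    have h3 : |t - s'| ≤ |s - s'| := by
      have := Set.abs_sub_right_of_mem_uIcc ht
      rw [abs_sub_comm s' t, abs_sub_comm s' s] at this
      exact this
    have h4 : Λ * |t - s'| ≤ Λ * (c / (2 * Λ)) := by
      apply mul_le_mul_of_nonneg_left (h3.trans hd) hΛ.le
    have h5 : Λ * (c / (2 * Λ)) = c / 2 := by field_simp
    have h6 := hfc s' hs'
    linarith
  have hzslit : ∀ t ∈ Set.uIcc s s', f t / f s' ∈ Complex.slitPlane := by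
    intro t ht
    have h1 : f t / f s' = 1 + (f t / f s' - 1) := by ring
    rw [h1]
    exact Complex.mem_slitPlane_of_norm_lt_one (lt_of_le_of_lt (hz t ht) (by norm_num))
  have hfcont : ContinuousOn f I := by
    refine ContinuousOn.congr (hℓ.cexp) ?_
    intro t ht
    exact (hexp t ht).symm
  have hzcont : ContinuousOn (fun t => f t / f s') (Set.uIcc s s') :=
    (hfcont.mono hJ).div_const _
  -- the difference `g` between the given logarithm and the principal one
  set g : ℝ → ℂ := fun t => ℓ t - ℓ s' - Complex.log (f t / f s') with hg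
  have hgcont : ContinuousOn g (Set.uIcc s s') :=
    ((hℓ.mono hJ).sub continuousOn_const).sub (hzcont.clog hzslit)
  have hgexp : ∀ t ∈ Set.uIcc s s', ∃ n : ℤ, g t = n * (2 * Real.pi * Complex.I) := by
    intro t ht
    apply Complex.exp_eq_one_iff.mp
    have hzne : f t / f s' ≠ 0 := Complex.slitPlane_ne_zero (hzslit t ht)
    rw [hg]
    simp only
    rw [Complex.exp_sub, Complex.exp_sub, Complex.exp_log hzne, hexp t (hJ ht), hexp s' hs']
    exact div_self hzne
  have hφcont : ContinuousOn (fun t => (g t).im / (2 * Real.pi)) (Set.uIcc s s') :=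
    (Complex.continuous_im.comp_continuousOn hgcont).div_const _
  have hφint : ∀ t ∈ Set.uIcc s s', ∃ n : ℤ, (g t).im / (2 * Real.pi) = n := by
    intro t ht
    obtain ⟨n, hn⟩ := hgexp t ht
    refine ⟨n, ?_⟩
    rw [hn]
    have hpi : (2 * Real.pi) ≠ 0 := by positivity
    have : ((n : ℂ) * (2 * (Real.pi : ℂ) * Complex.I)).im = n * (2 * Real.pi) := by
      simp [Complex.mul_im]
    rw [this]
    field_simp
  have hconst := loglift_int_valued_const hφcont hφint
  have hgs' : g s' = 0 := by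
    rw [hg]
    simp only
    rw [div_self hf0, Complex.log_one, sub_self, sub_zero]
  have hgs : g s = 0 := by
    obtain ⟨n, hn⟩ := hgexp s Set.left_mem_uIcc
    beta_reduce at hconst
    rw [hgs', Complex.zero_im, zero_div] at hconst
    obtain ⟨n', hn'⟩ := hφint s Set.left_mem_uIcc
    rw [hn] at hconst
    have hpi : (2 * Real.pi) ≠ 0 := by positivity
    have him : ((n : ℂ) * (2 * (Real.pi : ℂ) * Complex.I)).im = n * (2 * Real.pi) := by
      simp [Complex.mul_im]
    rw [him] at hconst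
    have hn0 : (n : ℝ) = 0 := by
      have : (n : ℝ) * (2 * Real.pi) / (2 * Real.pi) = n := by field_simp
      rw [this] at hconst
      exact hconst
    have hn0' : n = 0 := by exact_mod_cast hn0
    rw [hn, hn0']
    simp
  have hkey : ℓ s - ℓ s' = Complex.log (f s / f s') := by
    have := hgs
    rw [hg] at this
    simp only at this
    exact sub_eq_zero.mp this
  rw [hkey]
  have h1 : f s / f s' = 1 + (f s / f s' - 1) := by ring
  rw [h1]
  have h2 := Complex.norm_log_one_add_half_le_self (hz s Set.left_mem_uIcc)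
  have h3 := hz s Set.left_mem_uIcc
  linarith

/-- **CH2-LOG.** -/
theorem logLiftBounded : Fermat.Agent.H62.Cheb2.LogLiftBoundedStatement := by
  intro f ℓ δ c Λ hδ hc hℓ hexp hfc hLip
  set I : Set ℝ := Set.Ioc 1 (1 + δ) with hIdef
  have hI : I.OrdConnected := Set.ordConnected_Ioc
  set Λ' : ℝ := max Λ 1 with hΛ'
  have hΛ'pos : 0 < Λ' := lt_of_lt_of_le one_pos (le_max_right _ _)
  have hLip' : ∀ s ∈ I, ∀ s' ∈ I, ‖f s - f s'‖ ≤ Λ' * |s - s'| := by
    intro s hs s' hs'
    exact (hLip s hs s' hs').trans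
      (mul_le_mul_of_nonneg_right (le_max_left _ _) (abs_nonneg _))
  set h : ℝ := c / (2 * Λ') with hh
  have hhpos : 0 < h := by positivity
  have hend : (1 + δ) ∈ I := ⟨by linarith, le_rfl⟩
  have hstep : ∀ k : ℕ, ∀ s ∈ I, 1 + δ - k * h ≤ s → ‖ℓ s - ℓ (1 + δ)‖ ≤ k := by
    intro k
    induction k with
    | zero =>
      intro s hs hle
      have hs1 : s = 1 + δ := by
        have := hs.2
        simp only [Nat.cast_zero, zero_mul, sub_zero] at hle
        linarith
      rw [hs1, sub_self, norm_zero]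
      simp
    | succ k ih =>
      intro s hs hle
      set s' : ℝ := min (s + h) (1 + δ) with hs'def
      have hs'I : s' ∈ I := by
        constructor
        · exact lt_min (by linarith [hs.1]) (by linarith)
        · exact min_le_right _ _
      have hs'ge : 1 + δ - k * h ≤ s' := by
        apply le_min
        · push_cast at hle
          linarith
        · have : 0 ≤ (k : ℝ) * h := by positivity
          linarith
      have hss' : s ≤ s' := le_min (by linarith) hs.2
      have hd : |s - s'| ≤ h := by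
        rw [abs_sub_comm, abs_of_nonneg (by linarith)]
        have := min_le_left (s + h) (1 + δ)
        linarith
      have h1 := loglift_local f ℓ I hI c Λ' hc hΛ'pos hℓ hexp hfc hLip' hs hs'I hd
      have h2 := ih s' hs'I hs'ge
      have h3 : ℓ s - ℓ (1 + δ) = (ℓ s - ℓ s') + (ℓ s' - ℓ (1 + δ)) := by ring
      rw [h3]
      push_cast
      calc ‖(ℓ s - ℓ s') + (ℓ s' - ℓ (1 + δ))‖ ≤ ‖ℓ s - ℓ s'‖ + ‖ℓ s' - ℓ (1 + δ)‖ :=
            norm_add_le _ _
        _ ≤ 1 + k := by linarith
        _ = k + 1 := by ring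
  set n : ℕ := ⌈δ / h⌉₊ with hn
  refine ⟨‖ℓ (1 + δ)‖ + n, ?_⟩
  intro s hs
  have hnh : δ ≤ n * h := by
    have := Nat.le_ceil (δ / h)
    rw [div_le_iff₀ hhpos] at this
    exact this
  have h1 := hstep n s hs (by linarith [hs.1])
  have h2 : ℓ s = (ℓ s - ℓ (1 + δ)) + ℓ (1 + δ) := by ring
  rw [h2]
  calc ‖(ℓ s - ℓ (1 + δ)) + ℓ (1 + δ)‖ ≤ ‖ℓ s - ℓ (1 + δ)‖ + ‖ℓ (1 + δ)‖ := norm_add_le _ _
    _ ≤ ‖ℓ (1 + δ)‖ + n := by linarith

end Fermat.Agent.H65

end
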